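import Mathlib
import Fermat.Agent.LT.T2.H941.SmoSpec

/-!
# Row LT, tower T2, station T2.10 (SMO_AA), leaf T2.10.12 `Aut0C` (helper952)

OFF-MAIN.  `aut0C952 : Fermat.Agent.LT.T2.H941.Aut0C K` for every number field `K`: the forms of
A0 are left invariant under the diagonal positive scalars `Z⁺`.

Proof.  A diagonal positive scalar `z` is the scalar matrix of the idele `y` with components
`ρ_w = z₀₀ at w` at the infinite places and `1` at the finite places (the embedding of the
completion at `w` into `ℂ` is injective).  Hence `z` is central, and `z = ∏_w z_w` where `z_w` is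
the scalar matrix of the idele supported at `w` with component `ρ_w` (`Finset.univ_prod_mulSingle`);
`z_w` is a positive scalar at `w` in the sense of `A0.IsArchPosScalar`, and the form is right
invariant under each `z_w`.
-/

set_option autoImplicit false
set_option linter.unusedSectionVars false
set_option linter.style.haveILetI false

open IsDedekindDomain NumberField AutomorphicForm
open Fermat.Agent.LT.H556.A0

noncomputable section

namespace Fermat.Agent.LT.T2.H952

variable {K : Type} [Field K] [NumberField K]

/-- The scalar matrix of an idele. -/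
def sc952 : (Adl K)ˣ →* G K :=
  Units.map (Matrix.scalar (Fin 2) : Adl K →+* Matrix (Fin 2) (Fin 2) (Adl K)).toMonoidHom

theorem sc_apply952 (y : (Adl K)ˣ) (i j : Fin 2) :
    ((sc952 y : G K) : Matrix (Fin 2) (Fin 2) (Adl K)) i j = if i = j then (y : Adl K) else 0 := by
  show (Matrix.scalar (Fin 2) (y : Adl K)) i j = _
  rw [Matrix.scalar_apply, Matrix.diagonal_apply]

/-- Scalar matrices are central. -/
theorem sc_comm952 (y : (Adl K)ˣ) (g : G K) : sc952 y * g = g * sc952 y := by
  apply Units.ext
  show (Matrix.scalar (Fin 2) (y : Adl K)) * (g : Matrix (Fin 2) (Fin 2) (Adl K)) =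
    (g : Matrix (Fin 2) (Fin 2) (Adl K)) * (Matrix.scalar (Fin 2) (y : Adl K))
  exact (Matrix.scalar_commute (y : Adl K) (fun r => Commute.all _ r) _).eq

/-- The idele with given unit components at the infinite places and `1` at the finite places. -/
def idl952 : ((w : InfinitePlace K) → (w.Completion)ˣ) →* (Adl K)ˣ :=
  (MulEquiv.prodUnits (M := InfiniteAdeleRing K) (N := FiniteAdeleRing (𝓞 K) K)).symm.toMonoidHom.comp
    ((MonoidHom.inl _ _).comp
      (MulEquiv.piUnits (M := fun w : InfinitePlace K => w.Completion)).symm.toMonoidHom)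

theorem idl_fst952 (u : (w : InfinitePlace K) → (w.Completion)ˣ) (w : InfinitePlace K) :
    ((idl952 u : (Adl K)ˣ) : Adl K).1 w = (u w : w.Completion) := rfl

theorem idl_snd952 (u : (w : InfinitePlace K) → (w.Completion)ˣ) :
    ((idl952 u : (Adl K)ˣ) : Adl K).2 = 1 := rfl

theorem sc_entry_fst952 (y : (Adl K)ˣ) (i j : Fin 2) (w : InfinitePlace K) :
    (((sc952 y : G K) : Matrix (Fin 2) (Fin 2) (Adl K)) i j).1 w =
      if i = j then (y : Adl K).1 w else 0 := by
  rw [sc_apply952]
  split_ifs <;> rfl

theorem sc_entry_snd952 (y : (Adl K)ˣ) (i j : Fin 2) (v : HeightOneSpectrum (𝓞 K)) :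
    (((sc952 y : G K) : Matrix (Fin 2) (Fin 2) (Adl K)) i j).2 v =
      if i = j then (y : Adl K).2 v else 0 := by
  rw [sc_apply952]
  split_ifs <;> rfl

open scoped Classical in
/-- The scalar matrix of an idele supported at `w` whose component is a positive real number is
a positive scalar at `w`. -/
theorem isArchPosScalar_sc952 (w : InfinitePlace K) (ρ : (w.Completion)ˣ) (r : ℝ) (hr : 0 < r)
    (hρ : InfinitePlace.Completion.extensionEmbedding w (ρ : w.Completion) = (r : ℂ)) :
    IsArchPosScalar w (sc952 (idl952 (Pi.mulSingle w ρ))) := by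
  classical
  refine ⟨⟨?_, ?_⟩, r, hr, ?_⟩
  · intro w' hw' i j
    rw [sc_entry_fst952, idl_fst952, Pi.mulSingle_eq_of_ne hw', Matrix.one_apply]
    rfl
  · intro v
    refine Matrix.ext fun i j => ?_
    show (((sc952 (idl952 (Pi.mulSingle w ρ)) : G K) : Matrix (Fin 2) (Fin 2) (Adl K)) i j).2 v = _
    rw [sc_entry_snd952, idl_snd952, Matrix.one_apply]
    rfl
  · refine Matrix.ext fun i j => ?_
    show InfinitePlace.Completion.extensionEmbedding w
      ((((sc952 (idl952 (Pi.mulSingle w ρ)) : G K) : Matrix (Fin 2) (Fin 2) (Adl K)) i j).1 w) = _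
    rw [sc_entry_fst952, idl_fst952, Pi.mulSingle_eq_same, Matrix.diagonal_apply]
    split_ifs
    · exact hρ
    · exact map_zero _

/-- A diagonal positive scalar is the scalar matrix of an idele at infinity with positive real
components. -/
theorem exists_idl952 {z : G K} (hz : T2.IsDiagPosScalar z) :
    ∃ (u : (w : InfinitePlace K) → (w.Completion)ˣ) (r : ℝ), 0 < r ∧
      (∀ w, InfinitePlace.Completion.extensionEmbedding w (u w : w.Completion) = (r : ℂ)) ∧
      z = sc952 (idl952 u) := by
  obtain ⟨hfin, r, hr, hinf⟩ := hz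
  have hinj : ∀ w : InfinitePlace K,
      Function.Injective (InfinitePlace.Completion.extensionEmbedding w) :=
    fun w => (InfinitePlace.Completion.extensionEmbedding w).injective
  have hentry : ∀ (w : InfinitePlace K) (i j : Fin 2),
      InfinitePlace.Completion.extensionEmbedding w
        (((z : Matrix (Fin 2) (Fin 2) (Adl K)) i j).1 w) = if i = j then (r : ℂ) else 0 := by
    intro w i j
    have := congrFun (congrFun (hinf w) i) j
    rw [Matrix.diagonal_apply] at this
    exact this
  have h00 : ∀ w : InfinitePlace K, ((z : Matrix (Fin 2) (Fin 2) (Adl K)) 0 0).1 w ≠ 0 := by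
    intro w h0
    have := hentry w 0 0
    rw [h0, map_zero, if_pos rfl] at this
    exact hr.ne' (by exact_mod_cast this.symm)
  refine ⟨fun w => Units.mk0 _ (h00 w), r, hr, fun w => ?_, ?_⟩
  · have := hentry w 0 0
    rwa [if_pos rfl] at this
  · apply Units.ext
    refine Matrix.ext fun i j => ?_
    refine Prod.ext ?_ ?_
    · funext w
      rw [sc_entry_fst952, idl_fst952]
      apply hinj w
      rw [hentry w i j]
      split_ifs
      · exact (by have := hentry w 0 0; rwa [if_pos rfl] at this : _ = (r : ℂ)).symm
      · exact (map_zero _).symm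
    · apply RestrictedProduct.ext
      intro v
      have e1 := sc_entry_snd952 (idl952 fun w => Units.mk0 _ (h00 w)) i j v
      have e2 : (((z : Matrix (Fin 2) (Fin 2) (Adl K)) i j).2 v) = if i = j then 1 else 0 := by
        have := congrFun (congrFun (hfin v) i) j
        rw [Matrix.one_apply] at this
        exact this
      refine e2.trans (e1.trans ?_).symm
      rw [idl_snd952]
      split_ifs <;> rfl

/-- **Leaf T2.10.12** (registry row 1105). -/
theorem aut0C952 (K : Type) [Field K] [NumberField K] : H941.Aut0C K := by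
  classical
  intro π φ h
  refine ⟨h.cont, h.bdd, fun γ g => h.left_inv γ g, ?_⟩
  intro z hz g
  obtain ⟨u, r, hr, hu, rfl⟩ := exists_idl952 hz
  rw [sc_comm952]
  have hprod : ∀ (s : Finset (InfinitePlace K)) (x : G K),
      φ (x * sc952 (idl952 (∏ w ∈ s, Pi.mulSingle w (u w)))) = φ x := by
    intro s
    induction s using Finset.induction_on with
    | empty => intro x; rw [Finset.prod_empty, map_one, map_one, mul_one]
    | insert a s ha ih =>
      intro x
      rw [Finset.prod_insert ha, map_mul, map_mul, ← mul_assoc, ih]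
      exact h.arch_scalar a _ (isArchPosScalar_sc952 a (u a) r hr (hu a)) x
  have hu' : u = ∏ w, Pi.mulSingle w (u w) := (Finset.univ_prod_mulSingle u).symm
  have h3 := hprod Finset.univ g
  rw [← hu'] at h3
  exact h3

end Fermat.Agent.LT.T2.H952

end
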